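/-
S48 P5 seat (F), part 1 (helper7): counting the elements of a cyclic group whose order is not
divisible by `m2`, when `m2 ^ k` divides the order of the group.
-/
import Mathlib

set_option autoImplicit false

namespace Fermat.Agent.S48Cheb

/-- If `m2 ^ k ∣ n`, `d ∣ n` and `m2 ∤ d`, some prime `ℓ ∣ m2` has `ℓ ^ k * d ∣ n`. -/
lemma cyc_exists_prime_pow_mul_dvd {m2 k n d : ℕ} (hm : m2 ≠ 0) (hk : 1 ≤ k) (hn : n ≠ 0)
    (hMn : m2 ^ k ∣ n) (hdn : d ∣ n) (hnd : ¬ m2 ∣ d) :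
    ∃ ℓ : ℕ, ℓ.Prime ∧ ℓ ∣ m2 ∧ ℓ ^ k * d ∣ n := by
  have hd0 : d ≠ 0 := fun h => hn (by rw [h] at hdn; exact Nat.eq_zero_of_zero_dvd hdn)
  have h1 : ¬ ∀ p : ℕ, p.Prime → m2.factorization p ≤ d.factorization p :=
    fun h => hnd ((Nat.factorization_prime_le_iff_dvd hm hd0).mp h)
  push Not at h1
  obtain ⟨ℓ, hℓ, hlt⟩ := h1
  have hℓm : ℓ ∣ m2 := Nat.dvd_of_factorization_pos (by omega)
  refine ⟨ℓ, hℓ, hℓm, ?_⟩
  have hne : ℓ ^ k * d ≠ 0 := mul_ne_zero (pow_ne_zero _ hℓ.ne_zero) hd0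
  rw [← Nat.factorization_le_iff_dvd hne hn]
  intro q
  rw [Nat.factorization_mul (pow_ne_zero _ hℓ.ne_zero) hd0, Nat.factorization_pow,
    Finsupp.add_apply, Finsupp.smul_apply, smul_eq_mul]
  have h2 : (m2 ^ k).factorization ≤ n.factorization :=
    (Nat.factorization_le_iff_dvd (pow_ne_zero _ hm) hn).mpr hMn
  have h3 : d.factorization ≤ n.factorization := (Nat.factorization_le_iff_dvd hd0 hn).mpr hdn
  by_cases hq : q = ℓ
  · subst hq
    rw [hℓ.factorization_self, mul_one]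
    have h4 := h2 q
    rw [Nat.factorization_pow, Finsupp.smul_apply, smul_eq_mul] at h4
    have h5 : k * (d.factorization q + 1) ≤ k * m2.factorization q :=
      Nat.mul_le_mul_left k hlt
    nlinarith [Nat.zero_le (d.factorization q)]
  · rw [hℓ.factorization, Finsupp.single_apply, if_neg (fun h => hq h.symm), mul_zero, zero_add]
    exact h3 q

variable {U : Type*} [Group U] [Fintype U] [IsCyclic U] [DecidableEq U]

/-- The number of elements whose order is not divisible by `m2`. -/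
lemma cyc_card_bad_le {m2 k : ℕ} (hm : m2 ≠ 0) (hk : 1 ≤ k)
    (hMn : m2 ^ k ∣ Fintype.card U) :
    (Finset.univ.filter fun a : U => ¬ m2 ∣ orderOf a).card
      ≤ m2 * (Fintype.card U / 2 ^ k) := by
  classical
  set n := Fintype.card U with hn
  have hn0 : n ≠ 0 := Fintype.card_ne_zero
  have hsub : (Finset.univ.filter fun a : U => ¬ m2 ∣ orderOf a)
      ⊆ m2.primeFactors.biUnion fun ℓ => Finset.univ.filter fun a : U => a ^ (n / ℓ ^ k) = 1 := by
    intro a ha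
    rw [Finset.mem_filter] at ha
    obtain ⟨ℓ, hℓ, hℓm, hdvd⟩ :=
      cyc_exists_prime_pow_mul_dvd hm hk hn0 hMn (orderOf_dvd_card (x := a)) ha.2
    rw [Finset.mem_biUnion]
    refine ⟨ℓ, Nat.mem_primeFactors.mpr ⟨hℓ, hℓm, hm⟩, ?_⟩
    rw [Finset.mem_filter]
    refine ⟨Finset.mem_univ _, ?_⟩
    obtain ⟨c, hc⟩ := hdvd
    have h1 : n / ℓ ^ k = orderOf a * c := by
      rw [hc, mul_assoc, Nat.mul_div_cancel_left _ (pow_pos hℓ.pos k)]
    rw [h1, pow_mul, pow_orderOf_eq_one, one_pow]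
  refine (Finset.card_le_card hsub).trans (Finset.card_biUnion_le.trans ?_)
  have hterm : ∀ ℓ ∈ m2.primeFactors,
      (Finset.univ.filter fun a : U => a ^ (n / ℓ ^ k) = 1).card ≤ n / 2 ^ k := by
    intro ℓ hℓ
    obtain ⟨hℓp, hℓm, -⟩ := Nat.mem_primeFactors.mp hℓ
    have hℓn : ℓ ^ k ∣ n := (pow_dvd_pow_of_dvd hℓm k).trans hMn
    have hpos : 0 < n / ℓ ^ k :=
      Nat.div_pos (Nat.le_of_dvd (Nat.pos_of_ne_zero hn0) hℓn) (pow_pos hℓp.pos k)
    refine (IsCyclic.card_pow_eq_one_le hpos).trans ?_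
    exact Nat.div_le_div_left (Nat.pow_le_pow_left hℓp.two_le k) (pow_pos (by norm_num) k)
  refine (Finset.sum_le_card_nsmul _ _ _ hterm).trans ?_
  rw [smul_eq_mul]
  refine Nat.mul_le_mul_right _ ?_
  have : m2.primeFactors ⊆ Finset.Icc 1 m2 := by
    intro ℓ hℓ
    obtain ⟨hℓp, hℓm, -⟩ := Nat.mem_primeFactors.mp hℓ
    rw [Finset.mem_Icc]
    exact ⟨hℓp.one_le, Nat.le_of_dvd (Nat.pos_of_ne_zero hm) hℓm⟩
  have := Finset.card_le_card this
  rwa [Nat.card_Icc, Nat.add_sub_cancel] at this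

end Fermat.Agent.S48Cheb
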