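/-
S48 P5 seat (F), part 3 (helper7): the hypotheses `h1`, `h2` of (D) for a good `a`, and the
bound `frobCount ≤ [E:ℚ]`.
-/
import Fermat.Agent.S48.Cheb.Defs

set_option autoImplicit false

namespace Fermat.Agent.S48Cheb

open NumberField Fermat.Agent.FrobDensity

/-- `frobCount ≤ idealCount`. -/
lemma cyc_frobCount_le_idealCount (E L : Type) [Field E] [NumberField E] [Field L]
    [NumberField L] [Algebra E L] (g : L ≃ₐ[E] L) (p : ℕ) :
    frobCount E L g p ≤ idealCount E p := by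
  unfold frobCount idealCount
  haveI : Finite {I : Ideal (𝓞 E) // Ideal.absNorm I = p} :=
    Ideal.finite_setOfPred_absNorm_eq p
  refine Nat.card_le_card_of_injective
    (fun 𝔮 : {𝔮 : Ideal (𝓞 E) // Ideal.absNorm 𝔮 = p ∧
      ∃ P : Ideal (𝓞 L), P.IsPrime ∧ P.LiesOver 𝔮 ∧ ∀ x : 𝓞 L, g • x - x ^ p ∈ P} =>
      (⟨𝔮.1, 𝔮.2.1⟩ : {I : Ideal (𝓞 E) // Ideal.absNorm I = p})) ?_
  intro a b hab
  have h : (a : Ideal (𝓞 E)) = (b : Ideal (𝓞 E)) :=
    congrArg (fun x : {I : Ideal (𝓞 E) // Ideal.absNorm I = p} => (x : Ideal (𝓞 E))) hab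
  exact Subtype.ext h

/-- `frobCount ≤ [E:ℚ]` at the primes. -/
lemma cyc_frobCount_le (E L : Type) [Field E] [NumberField E] [Field L]
    [NumberField L] [Algebra E L] (g : L ≃ₐ[E] L) (p : Nat.Primes) :
    (frobCount E L g p : ℝ) ≤ (Module.finrank ℚ E : ℝ) := by
  exact_mod_cast (cyc_frobCount_le_idealCount E L g p).trans (idealCount_le_finrank E p.2)

section

variable {E K : Type} [Field E] [Field K] [Algebra E K] {t : ℕ} [Fact t.Prime]

/-- `σ ζ = ζ ^ a` determines the cyclotomic character of `σ`. -/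
lemma cyc_autToPow_eq {ζ : K} (hζ : IsPrimitiveRoot ζ t) (σ : K ≃ₐ[E] K) (a : (ZMod t)ˣ)
    (hσ : σ ζ = ζ ^ ((a : (ZMod t)ˣ) : ZMod t).val) : hζ.autToPow E σ = a := by
  have h1 : ζ ^ ((hζ.autToPow E σ : (ZMod t)ˣ) : ZMod t).val
      = ζ ^ ((a : (ZMod t)ˣ) : ZMod t).val := by
    rw [hζ.autToPow_spec E σ, hσ]
  have h2 := (hζ.pow_inj (ZMod.val_lt _) (ZMod.val_lt _) h1)
  exact Units.ext (ZMod.val_injective t h2)

/-- The action of the powers of `σ` on `ζ`. -/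
lemma cyc_pow_apply {ζ : K} (hζ : IsPrimitiveRoot ζ t) (σ : K ≃ₐ[E] K) (a : (ZMod t)ˣ)
    (hσ : σ ζ = ζ ^ ((a : (ZMod t)ˣ) : ZMod t).val) (j : ℕ) :
    (σ ^ j) ζ = ζ ^ (((a ^ j : (ZMod t)ˣ) : (ZMod t)ˣ) : ZMod t).val := by
  rw [← hζ.autToPow_spec E (σ ^ j), map_pow, cyc_autToPow_eq hζ σ a hσ]

end

/-- In `(ℤ/t)ˣ`, an element of even order `2 j` has `a ^ j = -1`. -/
lemma cyc_pow_half_eq_neg_one {t : ℕ} [Fact t.Prime] (a : (ZMod t)ˣ) (j : ℕ)
    (hj : orderOf a = 2 * j) : a ^ j = -1 := by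
  have hpos : 0 < orderOf a := orderOf_pos a
  have h1 : (a ^ j) * (a ^ j) = 1 := by
    rw [← pow_add, ← two_mul, ← hj, pow_orderOf_eq_one]
  have h2 : a ^ j ≠ 1 := by
    intro h
    have := orderOf_dvd_of_pow_eq_one h
    have hle := Nat.le_of_dvd (by omega) this
    omega
  have h3 : (((a ^ j : (ZMod t)ˣ) : ZMod t)) * ((a ^ j : (ZMod t)ˣ) : ZMod t) = 1 := by
    rw [← Units.val_mul, h1, Units.val_one]
  rcases mul_self_eq_one_iff.mp h3 with h4 | h4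
  · exact absurd (Units.ext h4) h2
  · exact Units.ext (by rw [h4, Units.val_neg, Units.val_one])

end Fermat.Agent.S48Cheb
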