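/-
S48 P5 seat (F), part 2 (helper7): elementary operations on `LowerSharp`, and the number of
square roots in `(ℤ/t)ˣ`.
-/
import Fermat.Agent.S48.Cheb.Defs

set_option autoImplicit false

namespace Fermat.Agent.S48Cheb

open Fermat.Agent.FrobDensity

/-- `log (1 / (s - 1)) ≥ 0` for `1 < s < 2`. -/
lemma cyc_log_nonneg {s : ℝ} (hs : 1 < s) (hs2 : s < 1 + 1) : 0 ≤ Real.log (1 / (s - 1)) := by
  apply Real.log_nonneg
  rw [le_div_iff₀ (by linarith)]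
  linarith

lemma cyc_lowerSharp_zero : LowerSharp (fun _ => (0 : ℝ)) 0 := by
  refine ⟨0, 1, one_pos, fun s _ _ => ?_⟩
  simp

lemma cyc_lowerSharp_add {w₁ w₂ : Nat.Primes → ℝ} {c₁ c₂ : ℝ}
    (hb₁ : ∃ B : ℝ, ∀ p, |w₁ p| ≤ B) (hb₂ : ∃ B : ℝ, ∀ p, |w₂ p| ≤ B)
    (h₁ : LowerSharp w₁ c₁) (h₂ : LowerSharp w₂ c₂) :
    LowerSharp (fun p => w₁ p + w₂ p) (c₁ + c₂) := by
  obtain ⟨B₁, δ₁, hδ₁, h₁⟩ := h₁
  obtain ⟨B₂, δ₂, hδ₂, h₂⟩ := h₂
  refine ⟨B₁ + B₂, min δ₁ δ₂, lt_min hδ₁ hδ₂, fun s hs hs' => ?_⟩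
  have e₁ := h₁ s hs (hs'.trans_le (by gcongr; exact min_le_left _ _))
  have e₂ := h₂ s hs (hs'.trans_le (by gcongr; exact min_le_right _ _))
  have hsum : ∑' p : Nat.Primes, (w₁ p + w₂ p) * ((p : ℕ) : ℝ) ^ (-s) =
      ∑' p : Nat.Primes, w₁ p * ((p : ℕ) : ℝ) ^ (-s) +
        ∑' p : Nat.Primes, w₂ p * ((p : ℕ) : ℝ) ^ (-s) := by
    rw [← (summable_weight_mul_rpow hb₁ hs).tsum_add (summable_weight_mul_rpow hb₂ hs)]
    exact tsum_congr fun p => add_mul _ _ _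
  rw [hsum]
  linarith

lemma cyc_lowerSharp_mono {w w' : Nat.Primes → ℝ} {c : ℝ}
    (hb : ∃ B : ℝ, ∀ p, |w p| ≤ B) (hb' : ∃ B : ℝ, ∀ p, |w' p| ≤ B)
    (hle : ∀ p, w p ≤ w' p) (h : LowerSharp w c) : LowerSharp w' c := by
  obtain ⟨B, δ, hδ, h⟩ := h
  refine ⟨B, δ, hδ, fun s hs hs' => (h s hs hs').trans ?_⟩
  refine (summable_weight_mul_rpow hb hs).tsum_le_tsum (fun p => ?_)
    (summable_weight_mul_rpow hb' hs)
  exact mul_le_mul_of_nonneg_right (hle p) (Real.rpow_nonneg (Nat.cast_nonneg _) _)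

lemma cyc_lowerSharp_const {w : Nat.Primes → ℝ} {c c' : ℝ} (hc : c' ≤ c)
    (h : LowerSharp w c) : LowerSharp w c' := by
  obtain ⟨B, δ, hδ, h⟩ := h
  refine ⟨B, min δ 1, lt_min hδ one_pos, fun s hs hs' => le_trans ?_
    (h s hs (hs'.trans_le (by gcongr; exact min_le_left _ _)))⟩
  have hlog := cyc_log_nonneg hs (hs'.trans_le (by gcongr; exact min_le_right _ _))
  have := mul_le_mul_of_nonneg_right hc hlog
  linarith

lemma cyc_lowerSharp_half {w : Nat.Primes → ℝ} {c : ℝ}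
    (h : LowerSharp (fun p => 2 * w p) c) : LowerSharp w (c / 2) := by
  obtain ⟨B, δ, hδ, h⟩ := h
  refine ⟨B / 2, δ, hδ, fun s hs hs' => ?_⟩
  have e := h s hs hs'
  have hsum : ∑' p : Nat.Primes, (2 * w p) * ((p : ℕ) : ℝ) ^ (-s) =
      2 * ∑' p : Nat.Primes, w p * ((p : ℕ) : ℝ) ^ (-s) := by
    rw [← tsum_mul_left]
    exact tsum_congr fun p => mul_assoc _ _ _
  rw [hsum] at e
  linarith

/-- Finite sums of weights. -/
lemma cyc_lowerSharp_sum {ι : Type*} (S : Finset ι) (w : ι → Nat.Primes → ℝ) (c : ℝ)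
    (hb : ∀ i ∈ S, ∃ B : ℝ, ∀ p, |w i p| ≤ B) (h : ∀ i ∈ S, LowerSharp (w i) c) :
    LowerSharp (fun p => ∑ i ∈ S, w i p) (S.card * c) ∧
      ∃ B : ℝ, ∀ p, |∑ i ∈ S, w i p| ≤ B := by
  classical
  induction S using Finset.induction_on with
  | empty =>
    refine ⟨?_, 0, fun p => by simp⟩
    simpa using cyc_lowerSharp_zero
  | insert a S ha ih =>
    obtain ⟨ih1, ih2⟩ := ih (fun i hi => hb i (Finset.mem_insert_of_mem hi))
      (fun i hi => h i (Finset.mem_insert_of_mem hi))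
    have hba := hb a (Finset.mem_insert_self a S)
    have h1 := cyc_lowerSharp_add hba ih2 (h a (Finset.mem_insert_self a S)) ih1
    refine ⟨?_, ?_⟩
    · have e : (fun p => ∑ i ∈ insert a S, w i p) = fun p => w a p + ∑ i ∈ S, w i p := by
        funext p
        rw [Finset.sum_insert ha]
      rw [e, Finset.card_insert_of_notMem ha]
      have e2 : ((S.card + 1 : ℕ) : ℝ) * c = c + S.card * c := by
        push_cast
        ring
      rw [e2]
      exact h1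
    · obtain ⟨B₁, hB₁⟩ := hba
      obtain ⟨B₂, hB₂⟩ := ih2
      refine ⟨B₁ + B₂, fun p => ?_⟩
      rw [Finset.sum_insert ha]
      exact (abs_add_le _ _).trans (add_le_add (hB₁ p) (hB₂ p))

/-- In `(ℤ/t)ˣ`, `t` prime, at most two elements have a given square. -/
lemma cyc_card_sq_eq_le (t : ℕ) [Fact t.Prime] (S : Finset (ZMod t)ˣ) (x : ZMod t) :
    (S.filter fun a : (ZMod t)ˣ => x ^ 2 = ((a : (ZMod t)ˣ) : ZMod t) ^ 2).card ≤ 2 := by
  classical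
  by_cases hne : (S.filter fun a : (ZMod t)ˣ => x ^ 2 = ((a : (ZMod t)ˣ) : ZMod t) ^ 2).Nonempty
  · obtain ⟨a₀, ha₀⟩ := hne
    rw [Finset.mem_filter] at ha₀
    have hsub : (S.filter fun a : (ZMod t)ˣ => x ^ 2 = ((a : (ZMod t)ˣ) : ZMod t) ^ 2)
        ⊆ {a₀, -a₀} := by
      intro a ha
      rw [Finset.mem_filter] at ha
      have h1 : ((a : (ZMod t)ˣ) : ZMod t) ^ 2 = ((a₀ : (ZMod t)ˣ) : ZMod t) ^ 2 := by
        rw [← ha.2, ← ha₀.2]
      rcases sq_eq_sq_iff_eq_or_eq_neg.mp h1 with h2 | h2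
      · rw [Finset.mem_insert]
        left
        exact Units.ext h2
      · rw [Finset.mem_insert, Finset.mem_singleton]
        right
        exact Units.ext (by rw [h2, Units.val_neg])
    exact (Finset.card_le_card hsub).trans Finset.card_le_two
  · rw [Finset.not_nonempty_iff_eq_empty.mp hne, Finset.card_empty]
    exact Nat.zero_le _

/-- The same for the inverses. -/
lemma cyc_card_sq_inv_eq_le (t : ℕ) [Fact t.Prime] (S : Finset (ZMod t)ˣ) (x : ZMod t) :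
    (S.filter fun a : (ZMod t)ˣ => x ^ 2 = ((a⁻¹ : (ZMod t)ˣ) : ZMod t) ^ 2).card ≤ 2 := by
  classical
  have h1 : (S.filter fun a : (ZMod t)ˣ => x ^ 2 = ((a⁻¹ : (ZMod t)ˣ) : ZMod t) ^ 2)
      = ((S.image fun a => a⁻¹).filter
          fun a : (ZMod t)ˣ => x ^ 2 = ((a : (ZMod t)ˣ) : ZMod t) ^ 2).image fun a => a⁻¹ := by
    ext a
    simp only [Finset.mem_filter, Finset.mem_image]
    constructor
    · rintro ⟨haS, ha⟩
      exact ⟨a⁻¹, ⟨⟨a, haS, rfl⟩, ha⟩, inv_inv a⟩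
    · rintro ⟨b, ⟨⟨c, hcS, rfl⟩, hb⟩, rfl⟩
      rw [inv_inv]
      exact ⟨hcS, hb⟩
  rw [h1]
  exact Finset.card_image_le.trans (cyc_card_sq_eq_le t _ x)

end Fermat.Agent.S48Cheb
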